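import Mathlib
import Fermat.Agent.LT.T2.H724.CommSpec

/-!
# Row LT, tower T2, sub-leaf T2.02d.3 `AdjMeasC724` (MEASURE) — helper286, OFF-MAIN

Registry row 1079.  Spec bytes: `LT/T2/H724/CommSpec.lean` (helper724@7fd05bef9, sha256 78972da3),
`LT/T2/Spec.lean` (helper130 v3, sha256 b934629a), `LT/T1/Spec.lean` (helper54, e8ae48d6),
`LT/H556/A0.lean` (66d3374a): byte-identical copies.

`adjMeasC286 : H724.AdjMeasC724 K` — every Haar measure of `GL₂(𝔸_K)` is invariant under the
anti-involution `ι(g) = adjugate g`.

Proof.  `τ = ι ∘ inv` is an involutive continuous automorphism of the locally compact second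
countable group `GL₂(𝔸_K)`, so its modulus `c` satisfies `c * c = 1`, i.e. `c = 1`
(`MeasureTheory.mulEquivHaarChar_trans`); `inv` preserves a Haar measure which is also right
invariant (`T1.UnimodC`), by the same involution argument; `ι = τ ∘ inv`.

The two abstract statements (`map_inv_eq_self_of_rightInv286`, `map_eq_self_of_involutive286`) are
over Mathlib only.
-/

set_option autoImplicit false
set_option linter.style.haveILetI false

open IsDedekindDomain NumberField MeasureTheory MeasureTheory.Measure
open Fermat.Agent.LT.H556.A0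
open scoped NNReal ENNReal

noncomputable section

namespace Fermat.Agent.LT.T2.H286

/-! ## 1. Abstract part (Mathlib only) -/

section Abstract

variable {G : Type*} [Group G] [TopologicalSpace G] [IsTopologicalGroup G]
  [MeasurableSpace G] [BorelSpace G] [LocallyCompactSpace G] [SecondCountableTopology G]

/-- In a locally compact second countable group, a Haar measure which is also right invariant
is invariant under inversion. -/
theorem map_inv_eq_self_of_rightInv286 (μ : Measure G) [IsHaarMeasure μ]
    [IsMulRightInvariant μ] : map Inv.inv μ = μ := by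
  haveI : IsHaarMeasure μ.inv :=
    { toIsFiniteMeasureOnCompacts := inferInstance
      toIsMulLeftInvariant := inferInstance
      toIsOpenPosMeasure := inferInstance }
  let c : ℝ≥0 := haarScalarFactor μ.inv μ
  have hc : μ.inv = c • μ := isMulLeftInvariant_eq_smul μ.inv μ
  have h2 : map Inv.inv (map Inv.inv μ) = (c * c) • μ := by
    rw [← inv_def μ, hc, Measure.map_smul, ← inv_def μ, hc, smul_smul]
  have μeq : μ = (c * c) • μ := by
    rw [map_map continuous_inv.measurable continuous_inv.measurable] at h2
    simpa only [inv_involutive, Function.Involutive.comp_self, Measure.map_id] using h2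
  have Kc : TopologicalSpace.PositiveCompacts G := Classical.arbitrary _
  have h3 : ((c * c : ℝ≥0) : ℝ≥0∞) * μ Kc = 1 * μ Kc := by
    conv_rhs => rw [μeq]
    simp [Measure.smul_apply, ENNReal.smul_def]
  have h4 : ((c * c : ℝ≥0) : ℝ≥0∞) = 1 :=
    (ENNReal.mul_left_inj (measure_pos_of_nonempty_interior _ Kc.interior_nonempty).ne'
      Kc.isCompact.measure_lt_top.ne).1 h3
  have h5 : c * c = 1 := by exact_mod_cast h4
  have h6 : c = 1 := by
    have h7 : (c : ℝ) * (c : ℝ) = 1 := by exact_mod_cast h5
    have h8 : (0 : ℝ) ≤ c := c.coe_nonneg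
    have h9 : (c : ℝ) = 1 := by nlinarith
    exact_mod_cast h9
  rw [← inv_def μ, hc, h6, one_smul]

/-- In a locally compact second countable group, every Haar measure is invariant under every
involutive continuous automorphism. -/
theorem map_eq_self_of_involutive286 (μ : Measure G) [IsHaarMeasure μ] (φ : G ≃ₜ* G)
    (hφ : ∀ g : G, φ (φ g) = g) : map φ μ = μ := by
  haveI : Regular μ := inferInstance
  have h1 : φ.trans φ = ContinuousMulEquiv.refl G := by
    ext g
    simp [hφ]
  have h2 : mulEquivHaarChar φ * mulEquivHaarChar φ = 1 := by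
    rw [← mulEquivHaarChar_trans, h1, mulEquivHaarChar_refl]
  have h3 : mulEquivHaarChar φ = 1 := by
    have h7 : ((mulEquivHaarChar φ : ℝ≥0) : ℝ) * ((mulEquivHaarChar φ : ℝ≥0) : ℝ) = 1 := by
      exact_mod_cast h2
    have h8 : (0 : ℝ) ≤ (mulEquivHaarChar φ : ℝ≥0) := NNReal.coe_nonneg _
    have h9 : ((mulEquivHaarChar φ : ℝ≥0) : ℝ) = 1 := by nlinarith
    exact_mod_cast h9
  have h4 := mulEquivHaarChar_smul_map μ φ
  rwa [h3, one_smul] at h4

end Abstract

/-! ## 2. The adelic group -/

open Fermat.Agent.LT.T2 Fermat.Agent.LT.T2.H724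

variable {K : Type} [Field K] [NumberField K]

attribute [local instance] Fermat.Agent.LT.T2.borelG

/-- The Borel `σ`-algebra is Borel. -/
theorem borelSpaceG286 : BorelSpace (G K) := ⟨rfl⟩

/-- `ι` is continuous. -/
theorem continuous_adjG286 : Continuous (adjG724 (K := K)) := by
  rw [Units.continuous_iff]
  constructor
  · exact (Units.continuous_val).matrix_adjugate
  · exact (Units.continuous_val.comp continuous_inv).matrix_adjugate

/-- The involutive automorphism `τ(g) = ι(g⁻¹)` of `GL₂(𝔸_K)`. -/
def tauEquiv286 : G K ≃ₜ* G K where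
  toFun g := adjG724 g⁻¹
  invFun g := adjG724 g⁻¹
  left_inv g := by
    show adjG724 (adjG724 g⁻¹)⁻¹ = g
    rw [← adjG724_inv, inv_inv, adjG724_adjG724]
  right_inv g := by
    show adjG724 (adjG724 g⁻¹)⁻¹ = g
    rw [← adjG724_inv, inv_inv, adjG724_adjG724]
  map_mul' g h := by
    show adjG724 (g * h)⁻¹ = adjG724 g⁻¹ * adjG724 h⁻¹
    rw [mul_inv_rev, adjG724_mul]
  continuous_toFun := continuous_adjG286.comp continuous_inv
  continuous_invFun := continuous_adjG286.comp continuous_inv

theorem tauEquiv286_apply (g : G K) : tauEquiv286 g = adjG724 g⁻¹ := rfl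

theorem tauEquiv286_involutive (g : G K) : tauEquiv286 (tauEquiv286 g) = g := by
  rw [tauEquiv286_apply, tauEquiv286_apply, ← adjG724_inv, inv_inv, adjG724_adjG724]

/-- **T2.02d.3 MEASURE** (registry row 1079): every Haar measure of `GL₂(𝔸_K)` is invariant
under `ι(g) = adjugate g`. -/
theorem adjMeasC286 (K : Type) [Field K] [NumberField K] : AdjMeasC724 K := by
  intro hLC hU μ hμ
  haveI : LocallyCompactSpace (G K) := hLC.2.1
  haveI : SecondCountableTopology (G K) := hLC.2.2.2
  haveI : BorelSpace (G K) := borelSpaceG286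
  haveI : IsHaarMeasure μ := hμ
  haveI : IsMulRightInvariant μ := hU μ hμ
  have h1 : map Inv.inv μ = μ := map_inv_eq_self_of_rightInv286 μ
  have h2 : map (tauEquiv286 (K := K)) μ = μ :=
    map_eq_self_of_involutive286 μ tauEquiv286 tauEquiv286_involutive
  have hcomp : (adjG724 (K := K)) = (tauEquiv286 (K := K)) ∘ Inv.inv := by
    funext g
    simp [tauEquiv286_apply]
  have hτ : Measurable (tauEquiv286 (K := K)) :=
    (continuous_adjG286.comp continuous_inv).measurable
  have hinv : Measurable (Inv.inv : G K → G K) := continuous_inv.measurable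
  refine ⟨continuous_adjG286.measurable, ?_⟩
  rw [hcomp, ← map_map hτ hinv, h1, h2]

end Fermat.Agent.LT.T2.H286

end
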